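import Fermat.Agent.S27.BC.Aut

/-!
# S27 / WP D12, auxiliary file (owner: helper12):
a constant field extension of a function field in one variable is one.
-/

set_option autoImplicit false

open AlgebraicCurve WithZero IntermediateField
open scoped TensorProduct

namespace Fermat.Agent.S27

variable {k K F₀ F : Type*} [Field k] [Field K] [Field F₀] [Field F]
  [Algebra k K] [Algebra k F₀] [Algebra K F] [Algebra F₀ F] [Algebra k F]
  [IsScalarTower k K F] [IsScalarTower k F₀ F]

theorem transcendental_of_linearIndependent_pow {x : F}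
    (h : LinearIndependent K (fun i : ℕ => x ^ i)) : Transcendental K x := by
  rw [transcendental_iff]
  intro p hp
  rw [Polynomial.aeval_eq_sum_range] at hp
  have h1 := linearIndependent_iff'.1 h (Finset.range (p.natDegree + 1)) p.coeff hp
  ext i
  by_cases hi : i ∈ Finset.range (p.natDegree + 1)
  · simpa using h1 i hi
  · rw [Finset.mem_range, not_lt] at hi
    simpa using Polynomial.coeff_eq_zero_of_natDegree_lt (by omega)

theorem linearIndependent_pow_of_transcendental' {x : F₀} (hx : Transcendental k x) :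
    LinearIndependent k (fun i : ℕ => x ^ i) := by
  have h := (Polynomial.basisMonomials k).linearIndependent.map' (Polynomial.aeval x).toLinearMap
    (LinearMap.ker_eq_bot.2 (transcendental_iff_injective.1 hx))
  have e : (fun i : ℕ => x ^ i) =
      (Polynomial.aeval x).toLinearMap ∘ (Polynomial.basisMonomials k) := by
    ext i
    simp
  rw [e]
  exact h

theorem transcendental_bc [IsBC k K F₀ F] {x₀ : F₀} (hx₀ : Transcendental k x₀) :
    Transcendental K (algebraMap F₀ F x₀) := by
  apply transcendental_of_linearIndependent_pow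
  have := linearIndependent_bc (K := K) (F := F) _ (linearIndependent_pow_of_transcendental' hx₀)
  simpa using this

theorem algebraMap_mem_adjoin_bc (x₀ : F₀) {c : F₀} (hc : c ∈ k⟮x₀⟯) :
    algebraMap F₀ F c ∈ K⟮algebraMap F₀ F x₀⟯ := by
  induction hc using IntermediateField.adjoin_induction with
  | mem x hx =>
    rw [Set.mem_singleton_iff] at hx
    rw [hx]
    exact mem_adjoin_simple_self K _
  | algebraMap a =>
    rw [← IsScalarTower.algebraMap_apply k F₀ F, IsScalarTower.algebraMap_apply k K F]
    exact IntermediateField.algebraMap_mem _ _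
  | add x y _ _ hx hy => rw [map_add]; exact add_mem hx hy
  | inv x _ hx => rw [map_inv₀]; exact inv_mem hx
  | mul x y _ _ hx hy => rw [map_mul]; exact mul_mem hx hy

theorem isFiniteParam_bc [IsBC k K F₀ F] {x₀ : F₀} (hx₀ : S24.IsFiniteParam k x₀) :
    S24.IsFiniteParam K (algebraMap F₀ F x₀) := by
  refine ⟨transcendental_bc hx₀.transcendental, ?_⟩
  have := hx₀.finite
  set x := algebraMap F₀ F x₀ with hx
  let ψ : k⟮x₀⟯ →+* K⟮x⟯ :=
    ((algebraMap F₀ F).comp (algebraMap k⟮x₀⟯ F₀)).codRestrict K⟮x⟯.toSubfield.toSubring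
      (fun c => algebraMap_mem_adjoin_bc x₀ c.2)
  have hint : ∀ f : F₀, IsIntegral K⟮x⟯ (algebraMap F₀ F f) := by
    intro f
    exact IsIntegral.map_of_comp_eq ψ (algebraMap F₀ F) (by ext c; rfl)
      (Algebra.IsIntegral.isIntegral (R := k⟮x₀⟯) f)
  let u := Module.finBasis k⟮x₀⟯ F₀
  let S : Set F := Set.range (fun j => algebraMap F₀ F (u j))
  have hfin : FiniteDimensional K⟮x⟯ (IntermediateField.adjoin K⟮x⟯ S) := by
    refine finiteDimensional_adjoin ?_
    rintro _ ⟨j, rfl⟩
    exact hint _
  have hF₀ : ∀ f : F₀, algebraMap F₀ F f ∈ IntermediateField.adjoin K⟮x⟯ S := by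
    intro f
    rw [← u.sum_repr f, map_sum]
    refine sum_mem fun j _ => ?_
    rw [Algebra.smul_def, map_mul]
    refine mul_mem ?_ (subset_adjoin _ _ ⟨j, rfl⟩)
    exact IntermediateField.algebraMap_mem (IntermediateField.adjoin K⟮x⟯ S) (ψ (u.repr f j))
  have hK : ∀ a : K, algebraMap K F a ∈ IntermediateField.adjoin K⟮x⟯ S := by
    intro a
    exact IntermediateField.algebraMap_mem (IntermediateField.adjoin K⟮x⟯ S)
      (algebraMap K K⟮x⟯ a)
  have hbc : ∀ z : F₀ ⊗[k] K, bcMap k K F₀ F z ∈ IntermediateField.adjoin K⟮x⟯ S := by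
    intro z
    induction z using TensorProduct.induction_on with
    | zero => rw [map_zero]; exact zero_mem _
    | tmul f a => rw [BCAux.bcMap_tmul]; exact mul_mem (hF₀ f) (hK a)
    | add y z hy hz => rw [map_add]; exact add_mem hy hz
  have htop : IntermediateField.adjoin K⟮x⟯ S = ⊤ := by
    rw [eq_top_iff]
    intro f _
    obtain ⟨a, b, hb, hab⟩ := IsBC.surj (k := k) (K := K) (F₀ := F₀) f
    rw [eq_div_of_mul_eq hb hab]
    exact div_mem (hbc a) (hbc b)
  rw [htop] at hfin
  exact topEquiv.toLinearEquiv.finiteDimensional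

/-- a constant field extension of a function field in one variable is one. -/
theorem isFF_of_isBC (k K F₀ F : Type*) [Field k] [Field K] [Field F₀] [Field F]
    [Algebra k K] [Algebra k F₀] [Algebra K F] [Algebra F₀ F] [Algebra k F]
    [IsScalarTower k K F] [IsScalarTower k F₀ F] [IsBC k K F₀ F] [IsFF k F₀] : IsFF K F := by
  obtain ⟨x₀, hx₀⟩ := IsFF.exists_param (K := k) (F := F₀)
  exact ⟨_, isFiniteParam_bc hx₀⟩

end Fermat.Agent.S27
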