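import Fermat.Agent.S27.BC.Defs
import Fermat.Agent.S27.BC.FieldAux

/-!
# S27 / WP D12 : the field `Frac (F₀ ⊗[k] K)`
-/

set_option autoImplicit false

open AlgebraicCurve WithZero
open scoped TensorProduct

namespace Fermat.Agent.S27

section

variable (k K F₀ : Type*) [Field k] [IsAlgClosed k] [Field K] [Algebra k K] [Field F₀] [Algebra k F₀]

instance isDomain_bcTensor : IsDomain (F₀ ⊗[k] K) := isDomain_tensor_of_isAlgClosed k F₀ K

/-- the constant field extension of `F₀` to `K`. -/
def BCField : Type _ := FractionRing (F₀ ⊗[k] K)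

noncomputable instance : Field (BCField k K F₀) := inferInstanceAs (Field (FractionRing (F₀ ⊗[k] K)))

/-- the map `F₀ ⊗ K → BCField`. -/
noncomputable def BCField.of : F₀ ⊗[k] K →+* BCField k K F₀ :=
  algebraMap (F₀ ⊗[k] K) (FractionRing (F₀ ⊗[k] K))

noncomputable instance : Algebra K (BCField k K F₀) :=
  ((BCField.of k K F₀).comp
    (Algebra.TensorProduct.includeRight : K →ₐ[k] F₀ ⊗[k] K).toRingHom).toAlgebra

noncomputable instance : Algebra F₀ (BCField k K F₀) :=
  ((BCField.of k K F₀).comp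
    (Algebra.TensorProduct.includeLeft : F₀ →ₐ[k] F₀ ⊗[k] K).toRingHom).toAlgebra

noncomputable instance : Algebra k (BCField k K F₀) :=
  ((algebraMap K (BCField k K F₀)).comp (algebraMap k K)).toAlgebra

instance : IsScalarTower k K (BCField k K F₀) := IsScalarTower.of_algebraMap_eq fun _ => rfl

instance : IsScalarTower k F₀ (BCField k K F₀) := by
  refine IsScalarTower.of_algebraMap_eq fun c => ?_
  show BCField.of k K F₀ ((1 : F₀) ⊗ₜ[k] algebraMap k K c) =
    BCField.of k K F₀ (algebraMap k F₀ c ⊗ₜ[k] (1 : K))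
  congr 1
  rw [Algebra.algebraMap_eq_smul_one, Algebra.algebraMap_eq_smul_one, TensorProduct.smul_tmul]

theorem BCField.bcMap_eq (z : F₀ ⊗[k] K) :
    bcMap k K F₀ (BCField k K F₀) z = BCField.of k K F₀ z := by
  induction z using TensorProduct.induction_on with
  | zero => rw [map_zero, map_zero]
  | tmul f a =>
    rw [BCAux.bcMap_tmul]
    show BCField.of k K F₀ (f ⊗ₜ[k] (1 : K)) * BCField.of k K F₀ ((1 : F₀) ⊗ₜ[k] a) = _
    rw [← map_mul, Algebra.TensorProduct.tmul_mul_tmul, mul_one, one_mul]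
  | add y z hy hz => rw [map_add, map_add, hy, hz]

instance : IsBC k K F₀ (BCField k K F₀) where
  inj := by
    intro y z h
    rw [BCField.bcMap_eq, BCField.bcMap_eq] at h
    exact IsFractionRing.injective (F₀ ⊗[k] K) (FractionRing (F₀ ⊗[k] K)) h
  surj := by
    intro f
    obtain ⟨⟨a, b⟩, hab⟩ := IsLocalization.surj (nonZeroDivisors (F₀ ⊗[k] K))
      (S := FractionRing (F₀ ⊗[k] K)) f
    refine ⟨a, b, ?_, ?_⟩
    · rw [BCField.bcMap_eq]
      exact IsFractionRing.to_map_ne_zero_of_mem_nonZeroDivisors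
        (K := FractionRing (F₀ ⊗[k] K)) b.2
    · rw [BCField.bcMap_eq, BCField.bcMap_eq]
      exact hab

instance [CharZero k] [IsAlgClosed K] [IsFF k F₀] : IsFF K (BCField k K F₀) :=
  isFF_of_isBC k K F₀ (BCField k K F₀)

end

end Fermat.Agent.S27
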