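import Fermat.Agent.S27.Pic
import Fermat.Agent.S27.Rational
import Fermat.Agent.S27.AutOrbit
import Fermat.Agent.S27.TensorDomain

/-!
# S27 / block D : extension of the constant field `k ⊆ K` (definitions by helper76)

`F₀/k` a function field, `F/K` a function field containing `F₀` and `K`,
`IsBC k K F₀ F` : `F = Frac (F₀ ⊗[k] K)`.
-/

set_option autoImplicit false

open AlgebraicCurve WithZero
open scoped TensorProduct

namespace Fermat.Agent.S27

section Defs

variable (k K F₀ F : Type*) [Field k] [Field K] [Field F₀] [Field F]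
  [Algebra k K] [Algebra k F₀] [Algebra K F] [Algebra F₀ F] [Algebra k F]
  [IsScalarTower k K F] [IsScalarTower k F₀ F]

/-- the canonical map `F₀ ⊗[k] K → F`. -/
noncomputable def bcMap : F₀ ⊗[k] K →ₐ[k] F :=
  Algebra.TensorProduct.productMap (IsScalarTower.toAlgHom k F₀ F) (IsScalarTower.toAlgHom k K F)

/-- `F` is the fraction field of `F₀ ⊗[k] K`. -/
class IsBC : Prop where
  inj : Function.Injective (bcMap k K F₀ F)
  surj : ∀ f : F, ∃ a b : F₀ ⊗[k] K, bcMap k K F₀ F b ≠ 0 ∧
    f * bcMap k K F₀ F b = bcMap k K F₀ F a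

/-- an automorphism of `F` which is the identity on `F₀` and induces `σ ∈ Aut(K/k)` on `K`. -/
structure BCAut where
  s : F ≃+* F
  σ : K ≃ₐ[k] K
  map_K : ∀ a : K, s (algebraMap K F a) = algebraMap K F (σ a)
  map_F₀ : ∀ f : F₀, s (algebraMap F₀ F f) = algebraMap F₀ F f

end Defs

end Fermat.Agent.S27
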