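import Fermat.Agent.S27.BC.Ext

/-!
# S27 / WPs D8, D9 : `L(D)` and the genus under extension of constants (owner: helper12)
-/

set_option autoImplicit false

open AlgebraicCurve WithZero Module
open scoped TensorProduct

namespace Fermat.Agent.S27

variable {k K F₀ F : Type*} [Field k] [Field K] [Field F₀] [Field F]
  [Algebra k K] [Algebra k F₀] [Algebra K F] [Algebra F₀ F] [Algebra k F]
  [IsScalarTower k K F] [IsScalarTower k F₀ F]
  [IsAlgClosed k] [CharZero k] [IsAlgClosed K] [CharZero K] [IsFF k F₀] [IsFF K F]
  [IsBC k K F₀ F]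

theorem mem_L_extDiv {D : Divisor k F₀} {f : F₀} :
    algebraMap F₀ F f ∈ riemannRochSpace (extDiv K F D) ↔ f ∈ riemannRochSpace D := by
  constructor
  · intro h v
    have := h (extPlace K F v)
    rwa [adic_extPlace, extDiv_apply] at this
  · intro h w
    by_cases hw : ∃ v : Place k F₀, w = extPlace K F v
    · obtain ⟨v, rfl⟩ := hw
      rw [adic_extPlace, extDiv_apply]
      exact h v
    · push Not at hw
      rw [extDiv_apply_of_not_rational D w hw]
      rcases eq_or_ne f 0 with rfl | hf
      · simp
      · rcases rational_or_trivial (k := k) (F₀ := F₀) w with ⟨v, hv⟩ | ht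
        · exact absurd hv (hw v)
        · rw [ht f hf]; simp

theorem finrank_L_le_extDiv (D : Divisor k F₀) :
    finrank k (riemannRochSpace D) ≤ finrank K (riemannRochSpace (extDiv K F D)) := by
  let b := Module.finBasis k (riemannRochSpace D)
  have h1 : LinearIndependent k (fun i => (b i : F₀)) :=
    b.linearIndependent.map' (Submodule.subtype _) (Submodule.ker_subtype _)
  have h2 := linearIndependent_bc (K := K) (F := F) _ h1
  have h3 : LinearIndependent K (fun i =>
      (⟨algebraMap F₀ F (b i), mem_L_extDiv.2 (b i).2⟩ : riemannRochSpace (extDiv K F D))) :=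
    LinearIndependent.of_comp (Submodule.subtype _) h2
  have := h3.fintype_card_le_finrank
  simpa using this

/-- elements of `L(ext D)` are regular at the rational places outside the support of `D`. -/
theorem adic_le_one_of_mem_L_extDiv {D : Divisor k F₀} {f : F}
    (hf : f ∈ riemannRochSpace (extDiv K F D)) {P : Place k F₀} (hP : P ∉ D.support) :
    (extPlace K F P).adicValuation f ≤ 1 := by
  have := hf (extPlace K F P)
  rw [extDiv_apply, Finsupp.notMem_support_iff.1 hP] at this
  simpa using this

/-- evaluation at finitely many rational places outside the support of `D`. -/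
noncomputable def evL (D : Divisor k F₀) (T : Finset (Place k F₀))
    (hT : ∀ P ∈ T, P ∉ D.support) :
    riemannRochSpace (extDiv K F D) →ₗ[K] (T → K) where
  toFun f := fun P => val (extPlace K F P.1) (f : F)
  map_add' f g := by
    funext P
    exact val_add _ (adic_le_one_of_mem_L_extDiv f.2 (hT P.1 P.2))
      (adic_le_one_of_mem_L_extDiv g.2 (hT P.1 P.2))
  map_smul' c f := by
    funext P
    show val (extPlace K F P.1) (c • (f : F)) = c * val (extPlace K F P.1) (f : F)
    rw [Algebra.smul_def, val_mul _ (Place.adicValuation_algebraMap_le_one _ c)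
      (adic_le_one_of_mem_L_extDiv f.2 (hT P.1 P.2)), val_algebraMap]

theorem evL_apply (D : Divisor k F₀) (T : Finset (Place k F₀))
    (hT : ∀ P ∈ T, P ∉ D.support) (f : riemannRochSpace (extDiv K F D)) (P : T) :
    evL D T hT f P = val (extPlace K F P.1) (f : F) := rfl

theorem evL_injective (D : Divisor k F₀) (T : Finset (Place k F₀))
    (hT : ∀ P ∈ T, P ∉ D.support) (hcard : Divisor.degree D < T.card) :
    Function.Injective (evL (K := K) (F := F) D T hT) := by
  classical
  rw [injective_iff_map_eq_zero]
  intro f hf
  have hmem : (f : F) ∈ riemannRochSpace (extDiv K F (D - finsetDiv T)) := by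
    intro w
    by_cases hw : ∃ v : Place k F₀, w = extPlace K F v
    · obtain ⟨v, rfl⟩ := hw
      rw [extDiv_apply, Finsupp.sub_apply, finsetDiv_apply]
      split_ifs with hv
      · rw [Finsupp.notMem_support_iff.1 (hT v hv), zero_sub, ← adic_lt_one_iff,
          ← val_eq_zero_iff _ (adic_le_one_of_mem_L_extDiv f.2 (hT v hv))]
        exact congrFun hf ⟨v, hv⟩
      · rw [sub_zero, ← extDiv_apply (K := K) (F := F)]
        exact f.2 _
    · push Not at hw
      rw [extDiv_apply_of_not_rational _ w hw, ← extDiv_apply_of_not_rational D w hw]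
      exact f.2 w
  rw [L_eq_bot_of_degree_neg (by
    rw [degree_extDiv, map_sub, degree_finsetDiv]
    omega), Submodule.mem_bot] at hmem
  exact Subtype.ext hmem

/-- the action of `BCAut` on `L(ext D)`. -/
theorem BCAut.mem_L_extDiv (A : BCAut k K F₀ F) {D : Divisor k F₀} {f : F}
    (hf : f ∈ riemannRochSpace (extDiv K F D)) : A.s f ∈ riemannRochSpace (extDiv K F D) := by
  have := A.mem_L_dv.2 hf
  rwa [A.dv_extDiv] at this

theorem BCAut.val_extPlace (A : BCAut k K F₀ F) (P : Place k F₀) (f : F) :
    val (extPlace K F P) (A.s f) = A.σ (val (extPlace K F P) f) := by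
  have := A.val_pl (extPlace K F P) f
  rwa [A.pl_extPlace] at this

theorem finrank_extDiv_le (D : Divisor k F₀) :
    finrank K (riemannRochSpace (extDiv K F D)) ≤ finrank k (riemannRochSpace D) := by
  classical
  have := infinite_places k F₀
  obtain ⟨T, hTs, hTc⟩ := (D.support.finite_toSet.infinite_compl).exists_subset_card_eq
    ((Divisor.degree D).toNat + 1)
  have hT : ∀ P ∈ T, P ∉ D.support := fun P hP h => hTs hP h
  have hcard : Divisor.degree D < T.card := by
    rw [hTc]
    have := Int.self_le_toNat (Divisor.degree D)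
    push_cast
    omega
  let ev := evL (K := K) (F := F) D T hT
  have hinj : Function.Injective ev := evL_injective D T hT hcard
  let W : Submodule K (T → K) := LinearMap.range ev
  have hact : ∀ (A : BCAut k K F₀ F) (f : riemannRochSpace (extDiv K F D)),
      ev ⟨A.s f, A.mem_L_extDiv f.2⟩ = fun P => A.σ (ev f P) := by
    intro A f
    funext P
    exact A.val_extPlace P.1 f
  have hW : ∀ σ : K ≃ₐ[k] K, ∀ w ∈ W, (fun i => σ (w i)) ∈ W := by
    rintro σ _ ⟨f, rfl⟩
    obtain ⟨A, rfl⟩ := exists_bcAut (F₀ := F₀) (F := F) σ
    exact ⟨⟨A.s f, A.mem_L_extDiv f.2⟩, hact A f⟩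
  obtain ⟨w, hwli, hwW, hwk⟩ := exists_rational_basis_fun (k := k) fixed_of_aut W hW
  choose f hf using hwW
  have hfix : ∀ j, ∀ A : BCAut k K F₀ F, A.s (f j : F) = (f j : F) := by
    intro j A
    have h1 : ev ⟨A.s (f j), A.mem_L_extDiv (f j).2⟩ = ev (f j) := by
      rw [hact A (f j), hf j]
      funext P
      obtain ⟨c, hc⟩ := hwk j P
      rw [← hc, AlgEquiv.commutes]
    exact congrArg Subtype.val (hinj h1)
  have hg : ∀ j, ∃ g : F₀, algebraMap F₀ F g = (f j : F) := fun j =>
    mem_range_of_bcAut_fixed (k := k) (K := K) (F₀ := F₀) _ (hfix j)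
  choose g hg using hg
  have hgL : ∀ j, g j ∈ riemannRochSpace D := fun j => by
    rw [← mem_L_extDiv (K := K) (F := F), hg j]
    exact (f j).2
  have hfli : LinearIndependent K f := by
    refine LinearIndependent.of_comp ev ?_
    have : ev ∘ f = w := funext hf
    rw [this]
    exact hwli
  have hfli' : LinearIndependent K (fun j => (f j : F)) :=
    hfli.map' (Submodule.subtype _) (Submodule.ker_subtype _)
  have hfli'' : LinearIndependent k (fun j => (f j : F)) := by
    refine hfli'.restrict_scalars ?_
    intro a a' h
    simpa [Algebra.smul_def] using h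
  have hgli : LinearIndependent k g := by
    refine LinearIndependent.of_comp (IsScalarTower.toAlgHom k F₀ F).toLinearMap ?_
    have : (IsScalarTower.toAlgHom k F₀ F).toLinearMap ∘ g = fun j => (f j : F) := funext hg
    rw [this]
    exact hfli''
  have hgli' : LinearIndependent k (fun j => (⟨g j, hgL j⟩ : riemannRochSpace D)) :=
    LinearIndependent.of_comp (Submodule.subtype _) hgli
  have h1 := hgli'.fintype_card_le_finrank
  rw [Fintype.card_fin] at h1
  rwa [LinearMap.finrank_range_of_inj hinj] at h1

/-- **D8.** `l(D)` is invariant under extension of constants. -/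
theorem finrank_L_extDiv (D : Divisor k F₀) :
    finrank K (riemannRochSpace (extDiv K F D)) = finrank k (riemannRochSpace D) :=
  le_antisymm (finrank_extDiv_le D) (finrank_L_le_extDiv D)

variable (k K F₀ F) in
/-- **D9.** the genus is invariant under extension of constants. -/
theorem genusFF_bc : genusFF K F = genusFF k F₀ := by
  obtain ⟨c, hc⟩ := exists_H1_eq_zero k F₀
  obtain ⟨c', hc'⟩ := exists_H1_eq_zero K F
  have := infinite_places k F₀
  obtain ⟨v⟩ : Nonempty (Place k F₀) := inferInstance
  let D : Divisor k F₀ := Finsupp.single v (max c c')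
  have hdeg : Divisor.degree D = max c c' := by
    rw [Divisor.degree_single, deg_eq_one]
    simp
  have h1 := rr1 D
  have h2 := rr1 (extDiv K F D)
  rw [hc D (by rw [hdeg]; exact le_max_left _ _)] at h1
  rw [hc' _ (by rw [degree_extDiv, hdeg]; exact le_max_right _ _), finrank_L_extDiv,
    degree_extDiv] at h2
  have : (genusFF K F : ℤ) = genusFF k F₀ := by linarith
  exact_mod_cast this

end Fermat.Agent.S27
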