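import Fermat.Agent.S27.BC.Defs

/-!
# S27 / WPs D4, D5, D6 : semilinear automorphisms of `F = Frac (F₀ ⊗ K)`
-/

set_option autoImplicit false
set_option linter.unusedSectionVars false

open AlgebraicCurve WithZero
open scoped TensorProduct

namespace Fermat.Agent.S27

variable {k K F₀ F : Type*} [Field k] [Field K] [Field F₀] [Field F]
  [Algebra k K] [Algebra k F₀] [Algebra K F] [Algebra F₀ F] [Algebra k F]
  [IsScalarTower k K F] [IsScalarTower k F₀ F]

namespace BCAux

theorem bcMap_tmul (f : F₀) (a : K) :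
    bcMap k K F₀ F (f ⊗ₜ a) = algebraMap F₀ F f * algebraMap K F a := by
  simp [bcMap]

end BCAux

/-- **D4.** every `σ ∈ Aut(K/k)` extends to `F`. -/
theorem exists_bcAut [IsBC k K F₀ F] (σ : K ≃ₐ[k] K) : ∃ A : BCAut k K F₀ F, A.σ = σ := by
  have hinj : Function.Injective (bcMap k K F₀ F) := IsBC.inj
  let _ : Algebra (F₀ ⊗[k] K) F := (bcMap k K F₀ F).toRingHom.toAlgebra
  have halg : ∀ y : F₀ ⊗[k] K, algebraMap (F₀ ⊗[k] K) F y = bcMap k K F₀ F y := fun _ => rfl
  have : IsDomain (F₀ ⊗[k] K) := hinj.isDomain (bcMap k K F₀ F).toRingHom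
  have : IsFractionRing (F₀ ⊗[k] K) F :=
    { map_units := by
        rintro ⟨y, hy⟩
        rw [halg, isUnit_iff_ne_zero]
        intro h0
        exact nonZeroDivisors.ne_zero hy (hinj (by rw [h0, map_zero]))
      surj := by
        intro z
        obtain ⟨a, b, hb, hab⟩ := IsBC.surj (k := k) (K := K) (F₀ := F₀) z
        have hb0 : b ≠ 0 := by
          rintro rfl
          exact hb (map_zero _)
        exact ⟨(a, ⟨b, mem_nonZeroDivisors_of_ne_zero hb0⟩), hab⟩
      exists_of_eq := by
        intro x y hxy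
        exact ⟨1, by rw [hinj hxy]⟩ }
  let τ : F₀ ⊗[k] K ≃ₐ[k] F₀ ⊗[k] K := Algebra.TensorProduct.congr AlgEquiv.refl σ
  let s : F ≃+* F := IsFractionRing.ringEquivOfRingEquiv τ.toRingEquiv
  have hs : ∀ y : F₀ ⊗[k] K, s (bcMap k K F₀ F y) = bcMap k K F₀ F (τ y) := fun y =>
    IsFractionRing.ringEquivOfRingEquiv_algebraMap τ.toRingEquiv y
  refine ⟨⟨s, σ, fun a => ?_, fun f => ?_⟩, rfl⟩
  · have h1 : algebraMap K F a = bcMap k K F₀ F (1 ⊗ₜ a) := by
      rw [BCAux.bcMap_tmul, map_one, one_mul]
    have h2 : algebraMap K F (σ a) = bcMap k K F₀ F (1 ⊗ₜ σ a) := by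
      rw [BCAux.bcMap_tmul, map_one, one_mul]
    rw [h1, h2, hs]
    simp [τ]
  · have h1 : algebraMap F₀ F f = bcMap k K F₀ F (f ⊗ₜ 1) := by
      rw [BCAux.bcMap_tmul, map_one, mul_one]
    rw [h1, hs]
    simp [τ]

/-- linear disjointness. -/
theorem linearIndependent_bc [IsBC k K F₀ F] {ι : Type*} (f : ι → F₀) (hf : LinearIndependent k f) :
    LinearIndependent K (fun i => algebraMap F₀ F (f i)) := by
  have h1 : LinearIndependent K (fun i => (1 : K) ⊗ₜ[k] f i) :=
    Module.Flat.linearIndependent_one_tmul hf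
  let γ : K ⊗[k] F₀ →ₐ[K] F :=
    Algebra.TensorProduct.productLeftAlgHom (Algebra.ofId K F) (IsScalarTower.toAlgHom k F₀ F)
  have hγ : ∀ y, γ y = bcMap k K F₀ F (Algebra.TensorProduct.comm k K F₀ y) := by
    intro y
    induction y using TensorProduct.induction_on with
    | zero => simp
    | tmul a f =>
      rw [Algebra.TensorProduct.comm_tmul, BCAux.bcMap_tmul]
      simp [γ, Algebra.ofId_apply, mul_comm]
    | add x y hx hy => rw [map_add, map_add, map_add, hx, hy]
  have hinj : Function.Injective γ := by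
    intro x y hxy
    rw [hγ, hγ] at hxy
    exact (Algebra.TensorProduct.comm k K F₀).injective (IsBC.inj hxy)
  have h2 := h1.map' γ.toLinearMap (LinearMap.ker_eq_bot.2 hinj)
  have h3 : (fun i => algebraMap F₀ F (f i)) = ⇑γ.toLinearMap ∘ fun i => (1 : K) ⊗ₜ[k] f i := by
    funext i
    simp [γ]
  rw [h3]
  exact h2


namespace BCAux

section Lam

variable {ι : Type*} (b : Module.Basis ι k F₀)

/-- `a ↦ ∑ a i • b i`, from `ι →₀ K` to `F`. -/
noncomputable def Lam : (ι →₀ K) →ₗ[K] F :=
  Finsupp.linearCombination K fun i => algebraMap F₀ F (b i)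

theorem Lam_single (i : ι) (a : K) :
    Lam (K := K) (F := F) b (Finsupp.single i a) = algebraMap K F a * algebraMap F₀ F (b i) := by
  simp [Lam, Algebra.smul_def]

theorem Lam_injective [IsBC k K F₀ F] : Function.Injective (Lam (K := K) (F := F) b) :=
  linearIndependent_bc (K := K) (F := F) b b.linearIndependent

/-- the rational vector of coordinates of `f`. -/
noncomputable def rat (f : F₀) : ι →₀ K :=
  Finsupp.mapRange (algebraMap k K) (map_zero _) (b.repr f)

theorem Lam_rat (f : F₀) : Lam (K := K) (F := F) b (rat b f) = algebraMap F₀ F f := by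
  have h : ((Lam (K := K) (F := F) b).restrictScalars k) ∘ₗ
      (Finsupp.mapRange.linearMap (Algebra.linearMap k K)) ∘ₗ b.repr.toLinearMap =
      (IsScalarTower.toAlgHom k F₀ F).toLinearMap := by
    apply b.ext
    intro i
    simp [Lam_single]
  exact LinearMap.congr_fun h f

theorem exists_of_rational (u : ι →₀ K) (hu : ∀ i, u i ∈ Set.range (algebraMap k K)) :
    ∃ f : F₀, Lam (K := K) (F := F) b u = algebraMap F₀ F f := by
  have hr0 : Function.invFun (algebraMap k K) 0 = 0 := by
    have := Function.leftInverse_invFun (algebraMap k K).injective 0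
    rwa [map_zero] at this
  refine ⟨b.repr.symm (u.mapRange (Function.invFun (algebraMap k K)) hr0), ?_⟩
  rw [← Lam_rat (K := K) b]
  congr 1
  ext i
  simp only [rat, LinearEquiv.apply_symm_apply, Finsupp.mapRange_apply]
  exact (Function.invFun_eq (hu i)).symm

theorem s_Lam (A : BCAut k K F₀ F) (a : ι →₀ K) :
    A.s (Lam (K := K) (F := F) b a) = Lam b (Finsupp.mapRange A.σ (map_zero _) a) := by
  induction a using Finsupp.induction_linear with
  | zero => simp
  | add x y hx hy => rw [map_add, map_add, hx, hy, Finsupp.mapRange_add (map_add A.σ), map_add]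
  | single i a =>
    rw [Finsupp.mapRange_single, Lam_single, Lam_single, map_mul, A.map_K, A.map_F₀]

theorem bcMap_mem_range (y : F₀ ⊗[k] K) :
    bcMap k K F₀ F y ∈ LinearMap.range (Lam (K := K) (F := F) b) := by
  induction y using TensorProduct.induction_on with
  | zero => rw [map_zero]; exact zero_mem _
  | tmul f a =>
    refine ⟨a • rat b f, ?_⟩
    rw [map_smul, Lam_rat, bcMap_tmul, Algebra.smul_def, mul_comm]
  | add x y hx hy => rw [map_add]; exact add_mem hx hy

theorem mul_Lam_mem_range (f : F₀) (c : ι →₀ K) :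
    algebraMap F₀ F f * Lam (K := K) (F := F) b c ∈ LinearMap.range (Lam (K := K) (F := F) b) := by
  induction c using Finsupp.induction_linear with
  | zero => rw [map_zero, mul_zero]; exact zero_mem _
  | add x y hx hy => rw [map_add, mul_add]; exact add_mem hx hy
  | single i a =>
    refine ⟨a • rat b (f * b i), ?_⟩
    rw [map_smul, Lam_rat, Lam_single, Algebra.smul_def, map_mul]
    ring

end Lam

end BCAux

/-- **D5.** the elements of `F` fixed by all `BCAut` are those of `F₀`
(denominator ideal + rationality lemma D1 + `fixed_of_aut` D2). -/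
theorem mem_range_of_bcAut_fixed [IsBC k K F₀ F] [IsAlgClosed k] [IsAlgClosed K] [CharZero k]
    (x : F) (h : ∀ A : BCAut k K F₀ F, A.s x = x) : x ∈ Set.range (algebraMap F₀ F) := by
  classical
  let b := Module.Basis.ofVectorSpace k F₀
  let Λ := BCAux.Lam (K := K) (F := F) b
  have hΛinj : Function.Injective Λ := BCAux.Lam_injective b
  have hfix : ∀ a : K, (∀ σ : K ≃ₐ[k] K, σ a = a) → a ∈ Set.range (algebraMap k K) :=
    fun a ha => fixed_of_aut a ha
  let W : Submodule K (_ →₀ K) := (LinearMap.range Λ).comap ((LinearMap.mulLeft K x) ∘ₗ Λ)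
  have hWmem : ∀ a, a ∈ W ↔ x * Λ a ∈ LinearMap.range Λ := fun a => Iff.rfl
  have hW : ∀ σ : K ≃ₐ[k] K, ∀ w ∈ W, Finsupp.mapRange σ (map_zero σ) w ∈ W := by
    intro σ w hw
    obtain ⟨A, rfl⟩ := exists_bcAut (F₀ := F₀) (F := F) σ
    rw [hWmem] at hw ⊢
    obtain ⟨c, hc⟩ := hw
    refine ⟨Finsupp.mapRange A.σ (map_zero _) c, ?_⟩
    have := congrArg A.s hc
    rw [map_mul, h A] at this
    rw [← BCAux.s_Lam b A w, ← this]
    exact (BCAux.s_Lam b A c).symm
  -- a nonzero element of `W`
  obtain ⟨a₀, b₀, hb₀, hab⟩ := IsBC.surj (k := k) (K := K) (F₀ := F₀) x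
  obtain ⟨w, hw⟩ := BCAux.bcMap_mem_range (K := K) (F := F) b b₀
  have hw0 : w ≠ 0 := by
    rintro rfl
    apply hb₀
    rw [← hw, map_zero]
  have hwW : w ∈ W := by
    rw [hWmem]
    have : Λ w = bcMap k K F₀ F b₀ := hw
    rw [this, hab]
    exact BCAux.bcMap_mem_range b a₀
  obtain ⟨u, huW, hu0, -, hur⟩ := exists_rational_support_subset hfix W hW _ w hwW hw0 le_rfl
  obtain ⟨f₀, hf₀⟩ := BCAux.exists_of_rational (K := K) (F := F) b u hur
  have hf₀ne : algebraMap F₀ F f₀ ≠ 0 := by
    rw [← hf₀]
    intro h0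
    exact hu0 (hΛinj (by rw [map_zero]; exact h0))
  obtain ⟨c, hc⟩ := (hWmem u).1 huW
  have hx : x = algebraMap F₀ F f₀⁻¹ * Λ c := by
    have h1 : Λ u = algebraMap F₀ F f₀ := hf₀
    rw [hc, h1, map_inv₀]
    field_simp
  obtain ⟨y, hy⟩ := BCAux.mul_Lam_mem_range (K := K) (F := F) b f₀⁻¹ c
  have hxy : x = Λ y := by rw [hx]; exact hy.symm
  have hyr : ∀ i, y i ∈ Set.range (algebraMap k K) := by
    intro i
    apply hfix
    intro σ
    obtain ⟨A, rfl⟩ := exists_bcAut (F₀ := F₀) (F := F) σ
    have h1 := h A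
    rw [hxy] at h1
    have h2 : Λ (Finsupp.mapRange A.σ (map_zero _) y) = Λ y := by
      rw [← h1]
      exact (BCAux.s_Lam b A y).symm
    have h3 := DFunLike.congr_fun (hΛinj h2) i
    simpa using h3
  obtain ⟨f, hf⟩ := BCAux.exists_of_rational (K := K) (F := F) b y hyr
  exact ⟨f, by rw [hxy]; exact hf.symm⟩


namespace BCAux

theorem ord_eq_of_ringEquiv {v w : Place K F} (s : F ≃+* F)
    (e : v.toValuationSubring ≃+* w.toValuationSubring)
    (he : ∀ x, ((e x : w.toValuationSubring) : F) = s x) (f : F) : w.ord (s f) = v.ord f := by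
  rcases eq_or_ne f 0 with rfl | hf
  · simp
  obtain ⟨π, hπ⟩ := IsDiscreteValuationRing.exists_irreducible v.toValuationSubring
  obtain ⟨u, hu⟩ := v.exists_unit_mul_zpow hf hπ
  set n := v.ord f with hn
  have hπ' : Irreducible (e π) := (MulEquiv.irreducible_iff e).mpr hπ
  have hu' : IsUnit (e (u : v.toValuationSubring)) := u.isUnit.map e
  have hcoeu : ((hu'.unit : w.toValuationSubring) : F) = s ((u : v.toValuationSubring) : F) := by
    rw [IsUnit.unit_spec]
    exact he _
  have hcoeπ : ((e π : w.toValuationSubring) : F) = s (π : F) := he _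
  have key : s f = ((hu'.unit : w.toValuationSubring) : F)
      * (((e π : w.toValuationSubring) : F) ^ n) := by
    rw [hcoeu, hcoeπ, hu, map_mul, map_zpow₀]
  rw [key, w.ord_unit_smul_zpow hu'.unit hπ' n]

theorem place_ext_adic {v w : Place K F} (h : ∀ f : F, v.adicValuation f = w.adicValuation f) :
    v = w := by
  apply Place.ext
  apply SetLike.ext
  intro f
  rw [← adic_le_one_iff_mem, ← adic_le_one_iff_mem, h f]

end BCAux

namespace BCAut

variable (A : BCAut k K F₀ F)

/-- the inverse automorphism. -/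
def symm : BCAut k K F₀ F where
  s := A.s.symm
  σ := A.σ.symm
  map_K a := by
    rw [RingEquiv.symm_apply_eq, A.map_K, AlgEquiv.apply_symm_apply]
  map_F₀ f := by
    rw [RingEquiv.symm_apply_eq, A.map_F₀]

/-- **D6.** action on places. -/
theorem exists_pl (v : Place K F) :
    ∃ w : Place K F, ∀ f : F, w.adicValuation (A.s f) = v.adicValuation f := by
  let O : ValuationSubring F := v.toValuationSubring.comap (A.s.symm : F →+* F)
  have hO : ∀ x : F, x ∈ O ↔ A.s.symm x ∈ v.toValuationSubring := fun x => Iff.rfl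
  let e : v.toValuationSubring ≃+* O :=
    { toFun := fun x => ⟨A.s x, by rw [hO, RingEquiv.symm_apply_apply]; exact x.2⟩
      invFun := fun y => ⟨A.s.symm y, y.2⟩
      left_inv := fun x => by ext; simp
      right_inv := fun y => by ext; simp
      map_mul' := fun x y => by ext; simp
      map_add' := fun x y => by ext; simp }
  let w : Place K F :=
    { toValuationSubring := O
      algebraMap_mem' := fun a => by
        rw [hO]
        have := A.symm.map_K a
        rw [show A.s.symm (algebraMap K F a) = algebraMap K F (A.σ.symm a) from this]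
        exact v.algebraMap_mem' _
      ne_top' := fun h => v.ne_top' <| by
        apply SetLike.ext
        intro x
        have h1 : A.s x ∈ O := by rw [h]; exact ValuationSubring.mem_top _
        rw [hO, RingEquiv.symm_apply_apply] at h1
        exact ⟨fun _ => ValuationSubring.mem_top _, fun _ => h1⟩
      isPrincipalIdealRing' := IsPrincipalIdealRing.of_surjective e e.surjective }
  refine ⟨w, fun f => ?_⟩
  rcases eq_or_ne f 0 with rfl | hf
  · simp
  · have hsf : A.s f ≠ 0 := by simpa using hf
    rw [w.adicValuation_eq_exp_neg_ord hsf, v.adicValuation_eq_exp_neg_ord hf,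
      BCAux.ord_eq_of_ringEquiv (v := v) (w := w) A.s e (fun x => rfl) f]

/-- the image of the place `v` under `A`. -/
noncomputable def pl (v : Place K F) : Place K F := (A.exists_pl v).choose

theorem adic_pl (v : Place K F) (f : F) : (A.pl v).adicValuation (A.s f) = v.adicValuation f :=
  (A.exists_pl v).choose_spec f

theorem pl_symm_pl (v : Place K F) : A.symm.pl (A.pl v) = v := by
  apply BCAux.place_ext_adic
  intro f
  have h1 := A.symm.adic_pl (A.pl v) (A.s f)
  rw [A.adic_pl] at h1
  rw [← h1]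
  congr 1
  exact (A.s.symm_apply_apply f).symm

theorem pl_pl_symm (v : Place K F) : A.pl (A.symm.pl v) = v := by
  apply BCAux.place_ext_adic
  intro f
  have h1 := A.adic_pl (A.symm.pl v) (A.symm.s f)
  rw [A.symm.adic_pl] at h1
  rw [← h1]
  congr 1
  exact (A.s.apply_symm_apply f).symm

theorem pl_injective : Function.Injective A.pl :=
  Function.LeftInverse.injective A.pl_symm_pl

theorem ord_pl (v : Place K F) (f : F) : (A.pl v).ord (A.s f) = v.ord f := by
  unfold Place.ord
  rw [A.adic_pl]

theorem val_pl (v : Place K F) (f : F) : val (A.pl v) (A.s f) = A.σ (val v f) := by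
  by_cases h : ∃ c : K, v.adicValuation (f - algebraMap K F c) < 1
  · obtain ⟨c, hc⟩ := h
    rw [val_unique v hc]
    apply val_unique
    rw [← A.map_K, ← map_sub, A.adic_pl]
    exact hc
  · have h' : ¬ ∃ c : K, (A.pl v).adicValuation (A.s f - algebraMap K F c) < 1 := by
      rintro ⟨c, hc⟩
      apply h
      refine ⟨A.σ.symm c, ?_⟩
      rw [← A.adic_pl, map_sub, A.map_K, AlgEquiv.apply_symm_apply]
      exact hc
    unfold val
    rw [dif_neg h, dif_neg h', map_zero]

/-- action on divisors. -/
noncomputable def dv (D : Divisor K F) : Divisor K F := D.mapDomain A.pl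

theorem dv_apply (D : Divisor K F) (v : Place K F) : A.dv D (A.pl v) = D v :=
  Finsupp.mapDomain_apply A.pl_injective D v

theorem dv_apply' (D : Divisor K F) (w : Place K F) : A.dv D w = D (A.symm.pl w) := by
  rw [← A.dv_apply D (A.symm.pl w), A.pl_pl_symm]

theorem dv_add (D E : Divisor K F) : A.dv (D + E) = A.dv D + A.dv E :=
  Finsupp.mapDomain_add

theorem dv_sub (D E : Divisor K F) : A.dv (D - E) = A.dv D - A.dv E :=
  map_sub (Finsupp.mapDomain.addMonoidHom A.pl) D E

theorem dv_nonneg {D : Divisor K F} (h : 0 ≤ D) : 0 ≤ A.dv D := by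
  intro w
  rw [A.dv_apply']
  exact h _

theorem mem_L_dv {D : Divisor K F} {f : F} :
    A.s f ∈ riemannRochSpace (A.dv D) ↔ f ∈ riemannRochSpace D := by
  constructor
  · intro h v
    have := h (A.pl v)
    rwa [A.adic_pl, A.dv_apply] at this
  · intro h w
    have := h (A.symm.pl w)
    rwa [← A.adic_pl, A.pl_pl_symm, ← A.dv_apply'] at this

theorem finrank_L_dv (D : Divisor K F) :
    Module.finrank K (riemannRochSpace (A.dv D)) = Module.finrank K (riemannRochSpace D) := by
  let j : riemannRochSpace D ≃+ riemannRochSpace (A.dv D) :=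
    { toFun := fun f => ⟨A.s f, A.mem_L_dv.2 f.2⟩
      invFun := fun f => ⟨A.s.symm f, A.mem_L_dv.1 (by rw [RingEquiv.apply_symm_apply]; exact f.2)⟩
      left_inv := fun f => by ext; simp
      right_inv := fun f => by ext; simp
      map_add' := fun f g => by ext; simp }
  have h := rank_eq_of_equiv_equiv (R := K) (R' := K) A.σ j A.σ.bijective (by
    intro r m
    ext
    show A.s (r • (m : F)) = A.σ r • A.s (m : F)
    rw [Algebra.smul_def, Algebra.smul_def, map_mul, A.map_K])
  unfold Module.finrank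
  rw [h]

theorem dv_principal {D : Divisor K F} (h : D ∈ Divisor.principal (K := K) (F := F)) :
    A.dv D ∈ Divisor.principal (K := K) (F := F) := by
  obtain ⟨f, hf, hD⟩ := h
  refine ⟨A.s f, by simpa using hf, fun w => ?_⟩
  rw [A.dv_apply', hD, ← A.ord_pl, A.pl_pl_symm]

theorem linEq_dv {D E : Divisor K F} (h : LinEq D E) : LinEq (A.dv D) (A.dv E) := by
  unfold LinEq at h ⊢
  rw [← A.dv_sub]
  exact A.dv_principal h

theorem degree_dv [IsAlgClosed K] [CharZero K] [IsFF K F] (D : Divisor K F) :
    Divisor.degree (A.dv D) = Divisor.degree D := by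
  induction D using Finsupp.induction_linear with
  | zero => simp [dv]
  | add D E hD hE => rw [A.dv_add, map_add, map_add, hD, hE]
  | single v n =>
    unfold dv
    rw [Finsupp.mapDomain_single, Divisor.degree_single, Divisor.degree_single, deg_eq_one,
      deg_eq_one]

end BCAut

end Fermat.Agent.S27
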