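import Fermat.Agent.S27.BC.Aut

/-!
# S27 / WP D7 : extension of places from `F₀/k` to `F/K`
-/

set_option autoImplicit false

open AlgebraicCurve WithZero
open scoped TensorProduct

namespace Fermat.Agent.S27

variable {k K F₀ F : Type*} [Field k] [Field K] [Field F₀] [Field F]
  [Algebra k K] [Algebra k F₀] [Algebra K F] [Algebra F₀ F] [Algebra k F]
  [IsScalarTower k K F] [IsScalarTower k F₀ F]

/-- `w` lies over `v`. -/
def IsOver (v : Place k F₀) (w : Place K F) : Prop :=
  ∀ f : F₀, v.adicValuation f < 1 → w.adicValuation (algebraMap F₀ F f) < 1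

theorem algebraMap_tower (c : k) :
    algebraMap F₀ F (algebraMap k F₀ c) = algebraMap K F (algebraMap k K c) := by
  rw [← IsScalarTower.algebraMap_apply k F₀ F, ← IsScalarTower.algebraMap_apply k K F]

theorem bcMap_tmul (f : F₀) (a : K) :
    bcMap k K F₀ F (f ⊗ₜ a) = algebraMap F₀ F f * algebraMap K F a := by
  simp [bcMap]

section
variable [IsAlgClosed k] [CharZero k] [IsFF k F₀]

theorem IsOver.sub_val {v : Place k F₀} {w : Place K F} (h : IsOver v w) {f : F₀}
    (hf : v.adicValuation f ≤ 1) :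
    w.adicValuation (algebraMap F₀ F f - algebraMap K F (algebraMap k K (val v f))) < 1 := by
  rw [← algebraMap_tower (F₀ := F₀), ← map_sub]
  exact h _ (val_spec v hf)

/-- the Gauss decomposition of an element of `F₀ ⊗ K` at a place `v` of `F₀`. -/
theorem exists_gauss (v : Place k F₀) {t : F₀} (ht : v.ord t = 1) (ht0 : t ≠ 0)
    (x : F₀ ⊗[k] K) (hx : x ≠ 0) :
    ∃ (m : ℤ) (u : F) (c : K), c ≠ 0 ∧ bcMap k K F₀ F x = algebraMap F₀ F t ^ m * u ∧
      ∀ w : Place K F, IsOver v w → w.adicValuation (u - algebraMap K F c) < 1 := by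
  classical
  let b := Module.Basis.ofVectorSpace k K
  let B := Algebra.TensorProduct.basis F₀ b
  set cf := B.repr x with hcf
  have hcf0 : cf ≠ 0 := by
    intro h
    apply hx
    have : B.repr x = 0 := h
    simpa using this
  have hne : cf.support.Nonempty := Finsupp.support_nonempty_iff.2 hcf0
  obtain ⟨i₀, hi₀, hmin⟩ := Finset.exists_min_image cf.support (fun i => v.ord (cf i)) hne
  set m := v.ord (cf i₀) with hm
  let g : _ → F₀ := fun i => cf i * t ^ (-m)
  have hx' : x = ∑ i ∈ cf.support, cf i ⊗ₜ[k] b i := by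
    conv_lhs => rw [← B.linearCombination_repr x]
    rw [Finsupp.linearCombination_apply, Finsupp.sum]
    refine Finset.sum_congr rfl fun i _ => ?_
    exact Algebra.TensorProduct.basis_repr_symm_apply' b _ i
  have hg : ∀ i ∈ cf.support, v.adicValuation (g i) ≤ 1 := by
    intro i hi
    rw [v.adicValuation_le_one_iff]
    right
    have hi0 : cf i ≠ 0 := Finsupp.mem_support_iff.1 hi
    rw [v.ord_mul hi0 (zpow_ne_zero _ ht0), v.ord_zpow, ht]
    have := hmin i hi
    omega
  refine ⟨m, ∑ i ∈ cf.support, algebraMap F₀ F (g i) * algebraMap K F (b i),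
    ∑ i ∈ cf.support, val v (g i) • b i, ?_, ?_, ?_⟩
  · intro h0
    have h1 := (linearIndependent_iff'.1 b.linearIndependent) cf.support (fun i => val v (g i)) h0
      i₀ hi₀
    rw [val_eq_zero_iff v (hg i₀ hi₀), adic_lt_one_iff_ord] at h1
    have hi0 : cf i₀ ≠ 0 := Finsupp.mem_support_iff.1 hi₀
    rcases h1 with h1 | h1
    · exact (mul_ne_zero hi0 (zpow_ne_zero _ ht0)) h1
    · rw [v.ord_mul hi0 (zpow_ne_zero _ ht0), v.ord_zpow, ht] at h1
      omega
  · rw [hx', map_sum, Finset.mul_sum]
    refine Finset.sum_congr rfl fun i _ => ?_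
    rw [bcMap_tmul, ← mul_assoc, ← map_zpow₀, ← map_mul]
    congr 2
    simp only [g]
    rw [mul_comm, mul_assoc, ← zpow_add₀ ht0]
    simp
  · intro w hw
    rw [map_sum, ← Finset.sum_sub_distrib]
    apply Valuation.map_sum_lt _ one_ne_zero
    intro i hi
    rw [Algebra.smul_def, map_mul (algebraMap K F), ← sub_mul, map_mul]
    exact lt_of_le_of_lt (mul_le_of_le_one_right' (w.adicValuation_algebraMap_le_one _))
      (hw.sub_val (hg i hi))


theorem adic_eq_one_of_sub_lt (w : Place K F) {u : F} {c : K} (hc : c ≠ 0)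
    (h : w.adicValuation (u - algebraMap K F c) < 1) : w.adicValuation u = 1 := by
  have h1 : w.adicValuation (algebraMap K F c) = 1 := adic_algebraMap w hc
  have h2 : u = (u - algebraMap K F c) + algebraMap K F c := by ring
  rw [h2, Valuation.map_add_eq_of_lt_right _ (by rw [h1]; exact h), h1]

theorem exists_gauss_field [IsBC k K F₀ F] (v : Place k F₀) {t : F₀} (ht : v.ord t = 1)
    (ht0 : t ≠ 0) {z : F} (hz : z ≠ 0) :
    ∃ (m : ℤ) (u : F), z = algebraMap F₀ F t ^ m * u ∧
      ∀ w : Place K F, IsOver v w → w.adicValuation u = 1 := by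
  obtain ⟨a, b, hb, hab⟩ := IsBC.surj (k := k) (K := K) (F₀ := F₀) z
  have hb0 : b ≠ 0 := by
    rintro rfl
    simp at hb
  have ha0 : a ≠ 0 := by
    rintro rfl
    rw [map_zero] at hab
    exact (mul_ne_zero hz hb) hab
  obtain ⟨ma, ua, ca, hca, hua, hwa⟩ := exists_gauss (K := K) (F := F) v ht ht0 a ha0
  obtain ⟨mb, ub, cb, hcb, hub, hwb⟩ := exists_gauss (K := K) (F := F) v ht ht0 b hb0
  have htF : algebraMap F₀ F t ≠ 0 := by simpa using ht0
  have hub0 : ub ≠ 0 := by
    rintro rfl
    rw [mul_zero] at hub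
    exact hb hub
  refine ⟨ma - mb, ua / ub, ?_, ?_⟩
  · rw [hua, hub] at hab
    rw [zpow_sub₀ htF]
    have h1 : algebraMap F₀ F t ^ mb ≠ 0 := zpow_ne_zero _ htF
    field_simp
    linear_combination hab
  · intro w hw
    rw [map_div₀, adic_eq_one_of_sub_lt w hca (hwa w hw), adic_eq_one_of_sub_lt w hcb (hwb w hw),
      div_one]

/-- evaluation at `v` as an algebra homomorphism. -/
noncomputable def valHom (v : Place k F₀) : v.toValuationSubring →ₐ[k] k where
  toFun f := val v (f : F₀)
  map_one' := val_one v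
  map_mul' f g := val_mul v ((adic_le_one_iff_mem v).2 f.2) ((adic_le_one_iff_mem v).2 g.2)
  map_zero' := by
    have := val_algebraMap v (0 : k)
    rwa [map_zero] at this
  map_add' f g := val_add v ((adic_le_one_iff_mem v).2 f.2) ((adic_le_one_iff_mem v).2 g.2)
  commutes' c := val_algebraMap v c

variable (K F) in
theorem exists_isOver [IsBC k K F₀ F] [IsAlgClosed K] [CharZero K] [IsFF K F] (v : Place k F₀) :
    ∃ w : Place K F, IsOver v w := by
  let O := v.toValuationSubring
  let ψ : O ⊗[k] K →ₐ[k] K :=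
    Algebra.TensorProduct.productMap ((Algebra.ofId k K).comp (valHom v)) (AlgHom.id k K)
  let incl : O →ₐ[k] F₀ := IsScalarTower.toAlgHom k O F₀
  let j : O ⊗[k] K →ₐ[k] F₀ ⊗[k] K := Algebra.TensorProduct.map incl (AlgHom.id k K)
  have hj : Function.Injective j := by
    have h1 : Function.Injective incl.toLinearMap := Subtype.val_injective
    have h2 := Module.Flat.rTensor_preserves_injective_linearMap (M := K) incl.toLinearMap h1
    exact h2
  let ι : O ⊗[k] K →+* F := ((bcMap k K F₀ F).comp j : O ⊗[k] K →ₐ[k] F)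
  have hι : Function.Injective ι := (IsBC.inj (k := k) (K := K) (F₀ := F₀) (F := F)).comp hj
  have hιt : ∀ (f : O) (a : K), ι (f ⊗ₜ a) = algebraMap F₀ F (f : F₀) * algebraMap K F a := by
    intro f a
    exact bcMap_tmul (f : F₀) a
  let A : Subring F := ι.range
  let ι' : O ⊗[k] K →+* A := ι.rangeRestrict
  let I : Ideal A := Ideal.map ι' (RingHom.ker (ψ : O ⊗[k] K →+* K))
  have hI : I ≠ ⊤ := by
    intro htop
    have h1 : (1 : A) ∈ I := htop ▸ Submodule.mem_top
    rw [Ideal.mem_map_iff_of_surjective ι' ι.rangeRestrict_surjective] at h1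
    obtain ⟨a, ha, ha1⟩ := h1
    have h2 : ι a = ι 1 := by
      have := congrArg Subtype.val ha1
      rw [map_one]
      exact this
    have h3 : a = 1 := hι h2
    rw [h3] at ha
    have h4 : ψ 1 = 0 := ha
    rw [map_one] at h4
    exact one_ne_zero h4
  obtain ⟨B, hAB, hIB⟩ := Ideal.image_subset_nonunits_valuationSubring I hI
  have hmem : ∀ a, ι a ∈ B := fun a => hAB ⟨a, rfl⟩
  have hnon : ∀ a, ψ a = 0 → ι a ∈ B.nonunits := by
    intro a ha
    apply hIB
    exact ⟨ι' a, Ideal.mem_map_of_mem ι' ha, rfl⟩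
  have hK : ∀ c : K, algebraMap K F c ∈ B := by
    intro c
    have := hmem (1 ⊗ₜ c)
    rw [hιt] at this
    simpa using this
  have hm : ∀ f : F₀, v.adicValuation f < 1 → algebraMap F₀ F f ∈ B.nonunits := by
    intro f hf
    have hfO : f ∈ O := (adic_le_one_iff_mem v).1 hf.le
    have := hnon ((⟨f, hfO⟩ : O) ⊗ₜ 1) (by
      simp only [ψ, Algebra.TensorProduct.productMap_apply_tmul, map_one, mul_one]
      show algebraMap k K (val v f) = 0
      rw [(val_eq_zero_iff v hf.le).2 hf, map_zero])
    rw [hιt] at this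
    simpa using this
  have hB : B ≠ ⊤ := by
    rintro rfl
    obtain ⟨t, ht0, _, ht⟩ := S24.Place.exists_uniformizer v
    have h1 := hm t ((adic_lt_one_iff_ord v).2 (Or.inr (by omega)))
    have h0 : algebraMap F₀ F t ≠ 0 := by simpa using ht0
    have := ((⊤ : ValuationSubring F).inv_mem_nonunits_iff
      (x := (algebraMap F₀ F t)⁻¹)).1 (by rwa [inv_inv])
    exact (this.resolve_left (inv_ne_zero h0)) (ValuationSubring.mem_top _)
  obtain ⟨x, hx⟩ := IsFF.exists_param (K := K) (F := F)
  obtain ⟨w, hw⟩ : ∃ w : Place K F, w.toValuationSubring = B := by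
    rcases B.mem_or_inv_mem x with h | h
    · exact hx.exists_place_eq B hK h hB
    · exact hx.inv.exists_place_eq B hK h hB
  refine ⟨w, fun f hf => ?_⟩
  have h1 := hm f hf
  rw [← hw] at h1
  -- nonunits
  rcases eq_or_ne f 0 with rfl | h0
  · simp
  have h0' : algebraMap F₀ F f ≠ 0 := by simpa using h0
  have h2 : (algebraMap F₀ F f)⁻¹ ∉ w.toValuationSubring := by
    have := (w.toValuationSubring.inv_mem_nonunits_iff (x := (algebraMap F₀ F f)⁻¹)).1
      (by rwa [inv_inv])
    exact this.resolve_left (inv_ne_zero h0')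
  rw [← adic_le_one_iff_mem, map_inv₀, not_le] at h2
  have h4 : w.adicValuation (algebraMap F₀ F f) ≠ 0 := (Valuation.ne_zero_iff _).2 h0'
  exact (one_lt_inv₀ (zero_lt_iff.2 h4)).1 h2

end

variable [IsAlgClosed k] [CharZero k] [IsAlgClosed K] [CharZero K] [IsFF k F₀] [IsFF K F]
  [IsBC k K F₀ F]

theorem IsOver.ord_unif {v : Place k F₀} {w : Place K F} (h : IsOver v w) {t : F₀}
    (ht : v.ord t = 1) (ht0 : t ≠ 0) : w.ord (algebraMap F₀ F t) = 1 := by
  have htF : algebraMap F₀ F t ≠ 0 := by simpa using ht0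
  have hpos : 0 < w.ord (algebraMap F₀ F t) :=
    ((adic_lt_one_iff_ord w).1 (h t ((adic_lt_one_iff_ord v).2 (Or.inr (by omega))))).resolve_left
      htF
  obtain ⟨π, hπ0, _, hπ⟩ := S24.Place.exists_uniformizer w
  obtain ⟨m, u, hu, hw⟩ := exists_gauss_field (K := K) (F := F) v ht ht0 hπ0
  have hu1 := hw w h
  have hu0 : u ≠ 0 := by
    rintro rfl
    simp at hu1
  have hou : w.ord u = 0 := by
    rw [w.adicValuation_eq_exp_neg_ord hu0, ← exp_zero, exp_inj] at hu1
    omega
  rw [hu, w.ord_mul (zpow_ne_zero _ htF) hu0, w.ord_zpow, hou, add_zero] at hπ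
  exact Int.eq_one_of_dvd_one hpos.le ⟨m, by rw [← hπ]; ring⟩

theorem IsOver.ord_eq {v : Place k F₀} {w : Place K F} (h : IsOver v w) {f : F₀} (hf : f ≠ 0) :
    w.ord (algebraMap F₀ F f) = v.ord f := by
  obtain ⟨t, ht0, _, ht⟩ := S24.Place.exists_uniformizer v
  have htF : algebraMap F₀ F t ≠ 0 := by simpa using ht0
  set n := v.ord f with hn
  set g := f * t ^ (-n) with hg
  have hg0 : g ≠ 0 := mul_ne_zero hf (zpow_ne_zero _ ht0)
  have hgo : v.ord g = 0 := by
    rw [hg, v.ord_mul hf (zpow_ne_zero _ ht0), v.ord_zpow, ht]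
    omega
  have hg1 : v.adicValuation g = 1 := by
    rw [v.adicValuation_eq_exp_neg_ord hg0, hgo]
    simp
  have hval : val v g ≠ 0 := by
    intro h0
    have := (val_eq_zero_iff v hg1.le).1 h0
    rw [hg1] at this
    exact lt_irrefl _ this
  have hw1 : w.adicValuation (algebraMap F₀ F g) = 1 :=
    adic_eq_one_of_sub_lt w (c := algebraMap k K (val v g)) (by simpa using hval)
      (h.sub_val hg1.le)
  have hgF : algebraMap F₀ F g ≠ 0 := by simpa using hg0
  have hwo : w.ord (algebraMap F₀ F g) = 0 := by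
    rw [w.adicValuation_eq_exp_neg_ord hgF, ← exp_zero, exp_inj] at hw1
    omega
  have hfg : f = t ^ n * g := by
    rw [hg, mul_comm f, ← mul_assoc, ← zpow_add₀ ht0]
    simp
  conv_lhs => rw [hfg]
  rw [map_mul, map_zpow₀, w.ord_mul (zpow_ne_zero _ htF) hgF, w.ord_zpow, hwo, h.ord_unif ht ht0]
  ring

theorem IsOver.adic_eq {v : Place k F₀} {w : Place K F} (h : IsOver v w) (f : F₀) :
    w.adicValuation (algebraMap F₀ F f) = v.adicValuation f := by
  rcases eq_or_ne f 0 with rfl | hf
  · simp
  have hfF : algebraMap F₀ F f ≠ 0 := by simpa using hf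
  rw [w.adicValuation_eq_exp_neg_ord hfF, v.adicValuation_eq_exp_neg_ord hf, h.ord_eq hf]

theorem IsOver.adic_eq_adic {v : Place k F₀} {w w' : Place K F} (h : IsOver v w)
    (h' : IsOver v w') (z : F) : w.adicValuation z = w'.adicValuation z := by
  rcases eq_or_ne z 0 with rfl | hz
  · simp
  obtain ⟨t, ht0, _, ht⟩ := S24.Place.exists_uniformizer v
  obtain ⟨m, u, hu, hw⟩ := exists_gauss_field (K := K) (F := F) v ht ht0 hz
  rw [hu, map_mul, map_mul, hw w h, hw w' h', map_zpow₀, map_zpow₀, h.adic_eq, h'.adic_eq]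

theorem IsOver.unique {v : Place k F₀} {w w' : Place K F} (h : IsOver v w)
    (h' : IsOver v w') : w = w' := by
  apply Place.ext
  ext z
  rw [← adic_le_one_iff_mem, ← adic_le_one_iff_mem, h.adic_eq_adic h']

variable (K F) in
/-- every place of `F₀/k` extends to `F/K`, without ramification. -/
theorem exists_extPlace (v : Place k F₀) :
    ∃ w : Place K F, ∀ f : F₀, w.adicValuation (algebraMap F₀ F f) = v.adicValuation f := by
  obtain ⟨w, hw⟩ := exists_isOver K F v
  exact ⟨w, hw.adic_eq⟩

variable (K F) in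
/-- the extension of `v` to `F`. -/
noncomputable def extPlace (v : Place k F₀) : Place K F := (exists_extPlace K F v).choose

theorem adic_extPlace (v : Place k F₀) (f : F₀) :
    (extPlace K F v).adicValuation (algebraMap F₀ F f) = v.adicValuation f :=
  (exists_extPlace K F v).choose_spec f

theorem isOver_extPlace (v : Place k F₀) : IsOver v (extPlace K F v) := by
  intro f hf
  rwa [adic_extPlace]

theorem ord_extPlace (v : Place k F₀) (f : F₀) :
    (extPlace K F v).ord (algebraMap F₀ F f) = v.ord f := by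
  unfold Place.ord
  rw [adic_extPlace]

theorem val_extPlace (v : Place k F₀) (f : F₀) :
    val (extPlace K F v) (algebraMap F₀ F f) = algebraMap k K (val v f) := by
  by_cases hf : v.adicValuation f ≤ 1
  · exact val_unique _ ((isOver_extPlace v).sub_val hf)
  · rw [val_of_pole v hf, val_of_pole _ (by rwa [adic_extPlace]), map_zero]

theorem extPlace_injective : Function.Injective (extPlace K F : Place k F₀ → Place K F) := by
  intro v v' h
  apply Place.ext
  ext f
  rw [← adic_le_one_iff_mem, ← adic_le_one_iff_mem, ← adic_extPlace (K := K) (F := F) v,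
    ← adic_extPlace (K := K) (F := F) v', h]

/-- uniqueness of the extension. -/
theorem eq_extPlace {v : Place k F₀} {w : Place K F}
    (h : ∀ f : F₀, v.adicValuation f < 1 → w.adicValuation (algebraMap F₀ F f) < 1) :
    w = extPlace K F v :=
  IsOver.unique h (isOver_extPlace v)

/-- a place of `F` is either rational over `k`, or trivial on `F₀`. -/
theorem rational_or_trivial (w : Place K F) :
    (∃ v : Place k F₀, w = extPlace K F v) ∨
      ∀ f : F₀, f ≠ 0 → w.adicValuation (algebraMap F₀ F f) = 1 := by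
  let O₀ : ValuationSubring F₀ := w.toValuationSubring.comap (algebraMap F₀ F)
  have hmem : ∀ f : F₀, f ∈ O₀ ↔ w.adicValuation (algebraMap F₀ F f) ≤ 1 := by
    intro f
    rw [adic_le_one_iff_mem]
    rfl
  by_cases htop : O₀ = ⊤
  · right
    intro f hf
    have h1 : f ∈ O₀ := htop ▸ ValuationSubring.mem_top f
    have h2 : f⁻¹ ∈ O₀ := htop ▸ ValuationSubring.mem_top f⁻¹
    rw [hmem] at h1 h2
    rw [map_inv₀, map_inv₀] at h2
    have hfF : algebraMap F₀ F f ≠ 0 := by simpa using hf
    have h4 : w.adicValuation (algebraMap F₀ F f) ≠ 0 := (Valuation.ne_zero_iff _).2 hfF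
    exact le_antisymm h1 ((inv_le_one₀ (zero_lt_iff.2 h4)).1 h2)
  · left
    have hk : ∀ c : k, algebraMap k F₀ c ∈ O₀ := by
      intro c
      rw [hmem, algebraMap_tower (K := K)]
      exact w.adicValuation_algebraMap_le_one _
    obtain ⟨x, hx⟩ := IsFF.exists_param (K := k) (F := F₀)
    obtain ⟨v, hv⟩ : ∃ v : Place k F₀, v.toValuationSubring = O₀ := by
      rcases O₀.mem_or_inv_mem x with h | h
      · exact hx.exists_place_eq O₀ hk h htop
      · exact hx.inv.exists_place_eq O₀ hk h htop
    refine ⟨v, eq_extPlace fun f hf => ?_⟩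
    rcases eq_or_ne f 0 with rfl | hf0
    · simp
    have h1 : ¬ v.adicValuation f⁻¹ ≤ 1 := by
      rw [map_inv₀, not_le]
      exact (one_lt_inv₀ (zero_lt_iff.2 ((Valuation.ne_zero_iff _).2 hf0))).2 hf
    rw [adic_le_one_iff_mem, hv, hmem, map_inv₀, map_inv₀, not_le] at h1
    have hfF : algebraMap F₀ F f ≠ 0 := by simpa using hf0
    exact (one_lt_inv₀ (zero_lt_iff.2 ((Valuation.ne_zero_iff _).2 hfF))).1 h1

/-- rationality criterion: all values of functions of `F₀` lie in `k`. -/
theorem rational_of_val (w : Place K F) {x : F₀} (hx : x ∉ Set.range (algebraMap k F₀))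
    (h : ¬ w.adicValuation (algebraMap F₀ F x) ≤ 1 ∨
      val w (algebraMap F₀ F x) ∈ Set.range (algebraMap k K)) :
    ∃ v : Place k F₀, w = extPlace K F v := by
  rcases rational_or_trivial (k := k) (F₀ := F₀) w with h1 | h1
  · exact h1
  · exfalso
    have hx0 : x ≠ 0 := by
      rintro rfl
      exact hx ⟨0, map_zero _⟩
    rcases h with h | ⟨c, hc⟩
    · exact h (h1 x hx0).le
    · have h2 := val_spec w (h1 x hx0).le
      rw [← hc, ← algebraMap_tower (F₀ := F₀), ← map_sub, h1 _ (by
        intro h0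
        exact hx ⟨c, (sub_eq_zero.1 h0).symm⟩)] at h2
      exact lt_irrefl _ h2

theorem BCAut.pl_extPlace (A : BCAut k K F₀ F) (v : Place k F₀) :
    A.pl (extPlace K F v) = extPlace K F v := by
  apply eq_extPlace
  intro f hf
  rw [← A.map_F₀, A.adic_pl, adic_extPlace]
  exact hf

variable (K F) in
/-- extension of divisors. -/
noncomputable def extDiv (D : Divisor k F₀) : Divisor K F := D.mapDomain (extPlace K F)

theorem extDiv_apply (D : Divisor k F₀) (v : Place k F₀) : extDiv K F D (extPlace K F v) = D v :=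
  Finsupp.mapDomain_apply extPlace_injective D v

theorem extDiv_apply_of_not_rational (D : Divisor k F₀) (w : Place K F)
    (hw : ∀ v : Place k F₀, w ≠ extPlace K F v) : extDiv K F D w = 0 := by
  apply Finsupp.mapDomain_of_notMem_range
  rintro ⟨v, rfl⟩
  exact hw v rfl

theorem extDiv_add (D E : Divisor k F₀) : extDiv K F (D + E) = extDiv K F D + extDiv K F E :=
  Finsupp.mapDomain_add

theorem extDiv_sub (D E : Divisor k F₀) : extDiv K F (D - E) = extDiv K F D - extDiv K F E :=
  map_sub (Finsupp.mapDomain.addMonoidHom (extPlace K F)) D E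

theorem degree_extDiv (D : Divisor k F₀) : Divisor.degree (extDiv K F D) = Divisor.degree D := by
  induction D using Finsupp.induction with
  | zero => simp [extDiv]
  | single_add v n D _ _ ih =>
    rw [extDiv_add, map_add, map_add, ih]
    congr 1
    unfold extDiv
    rw [Finsupp.mapDomain_single, Divisor.degree_single, Divisor.degree_single, deg_eq_one,
      deg_eq_one]

theorem extDiv_divOf {f : F₀} (hf : f ≠ 0) :
    extDiv K F (divOf (K := k) f) = divOf (K := K) (algebraMap F₀ F f) := by
  ext w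
  rw [divOf_apply]
  rcases rational_or_trivial (k := k) (F₀ := F₀) w with ⟨v, rfl⟩ | h1
  · rw [extDiv_apply, divOf_apply, ord_extPlace]
  · have h2 := h1 f hf
    have hfF : algebraMap F₀ F f ≠ 0 := by simpa using hf
    have h3 : w.ord (algebraMap F₀ F f) = 0 := by
      rw [w.adicValuation_eq_exp_neg_ord hfF, ← exp_zero, exp_inj] at h2
      omega
    rw [h3]
    apply extDiv_apply_of_not_rational
    rintro v rfl
    obtain ⟨t, ht0, _, ht⟩ := S24.Place.exists_uniformizer v
    have h4 := h1 t ht0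
    rw [adic_extPlace, v.adicValuation_eq_exp_neg_ord ht0, ht, ← exp_zero, exp_inj] at h4
    omega

theorem BCAut.dv_extDiv (A : BCAut k K F₀ F) (D : Divisor k F₀) :
    A.dv (extDiv K F D) = extDiv K F D := by
  unfold BCAut.dv extDiv
  rw [← Finsupp.mapDomain_comp]
  congr 1
  funext v
  exact A.pl_extPlace v

/-- a divisor supported on rational places is an extended divisor. -/
theorem exists_eq_extDiv (E : Divisor K F)
    (h : ∀ w ∈ E.support, ∃ v : Place k F₀, w = extPlace K F v) :
    ∃ D : Divisor k F₀, E = extDiv K F D := by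
  refine ⟨E.comapDomain (extPlace K F) extPlace_injective.injOn, ?_⟩
  unfold extDiv
  rw [Finsupp.mapDomain_comapDomain _ extPlace_injective]
  intro w hw
  obtain ⟨v, rfl⟩ := h w hw
  exact ⟨v, rfl⟩

end Fermat.Agent.S27
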