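import Fermat.Agent.S27.BC.LSpaceBC
import Fermat.Agent.S27.MinRep

/-!
# S27 / WPs D10 - D11 : `Pic0` and torsion under extension of constants
(`mem_L_extDiv`, `finrank_L_extDiv` (**D8**), `genusFF_bc` (**D9**) are in `BC/LSpaceBC.lean`.)
-/

set_option autoImplicit false

open AlgebraicCurve WithZero Module
open scoped TensorProduct

namespace Fermat.Agent.S27

section General

variable {K F : Type*} [Field K] [Field F] [Algebra K F]

theorem dcl_nsmul {D : Divisor K F} (hD : Divisor.degree D = 0) (n : ℕ) :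
    dcl (n • D) = n • dcl D := by
  induction n with
  | zero => simp [dcl_zero]
  | succ n ih =>
    rw [succ_nsmul, succ_nsmul, dcl_add (by rw [map_nsmul, hD, smul_zero]) hD, ih]

end General

variable {k K F₀ F : Type*} [Field k] [Field K] [Field F₀] [Field F]
  [Algebra k K] [Algebra k F₀] [Algebra K F] [Algebra F₀ F] [Algebra k F]
  [IsScalarTower k K F] [IsScalarTower k F₀ F]
  [IsAlgClosed k] [CharZero k] [IsAlgClosed K] [CharZero K] [IsFF k F₀] [IsFF K F]
  [IsBC k K F₀ F]

/-- **D10.** principal divisors descend. -/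
theorem principal_of_extDiv {D : Divisor k F₀}
    (h : extDiv K F D ∈ Divisor.principal (K := K) (F := F)) :
    D ∈ Divisor.principal (K := k) (F := F₀) := by
  obtain ⟨f, hf, hDf⟩ := mem_principal_iff.1 h
  have hdeg : Divisor.degree D = 0 := by
    rw [← degree_extDiv (K := K) (F := F) D, hDf, degree_divOf hf]
  have hmem : f⁻¹ ∈ riemannRochSpace (extDiv K F D) := by
    rw [mem_riemannRochSpace_iff]
    intro v
    right
    rw [hDf, divOf_apply, Place.ord_inv]
  have hl : finrank K (riemannRochSpace (extDiv K F D)) ≠ 0 := by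
    have : Nontrivial (riemannRochSpace (extDiv K F D)) :=
      ⟨⟨⟨f⁻¹, hmem⟩, 0, fun h => inv_ne_zero hf (congrArg Subtype.val h)⟩⟩
    exact finrank_pos.ne'
  rw [finrank_L_extDiv] at hl
  obtain ⟨h₀, hh₀, hhL⟩ := exists_ne_zero_mem_L hl
  have h1 := NS.eq_zero_of_degree_eq_zero (effective_of_mem_L hh₀ hhL)
    (by rw [map_add, degree_divOf hh₀, hdeg, add_zero])
  have h2 : D = - divOf h₀ := eq_neg_of_add_eq_zero_left h1
  rw [h2]
  exact neg_mem (mem_principal_iff.2 ⟨h₀, hh₀, rfl⟩)

theorem extDiv_principal {D : Divisor k F₀} (h : D ∈ Divisor.principal (K := k) (F := F₀)) :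
    extDiv K F D ∈ Divisor.principal (K := K) (F := F) := by
  obtain ⟨f, hf, rfl⟩ := mem_principal_iff.1 h
  rw [extDiv_divOf hf]
  exact mem_principal_iff.2 ⟨_, (map_ne_zero _).mpr hf, rfl⟩

theorem extDiv_nsmul (n : ℕ) (D : Divisor k F₀) : extDiv K F (n • D) = n • extDiv K F D := by
  induction n with
  | zero =>
    have := extDiv_sub (K := K) (F := F) D D
    simpa using this
  | succ n ih => rw [succ_nsmul, succ_nsmul, extDiv_add, ih]

/-- the set of `n`-torsion classes of `F` which are defined over `k`. -/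
def ratTorsion (k F₀ : Type*) {K F : Type*} [Field k] [Field K] [Field F₀] [Field F]
    [Algebra k K] [Algebra k F₀] [Algebra K F] [Algebra F₀ F] [Algebra k F]
    [IsScalarTower k K F] [IsScalarTower k F₀ F]
    [IsAlgClosed k] [CharZero k] [IsAlgClosed K] [CharZero K] [IsFF k F₀] [IsFF K F]
    [IsBC k K F₀ F] (n : ℕ) : Set (Pic0 K F) :=
  {x | n • x = 0 ∧ ∃ D : Divisor k F₀, Divisor.degree D = 0 ∧ dcl (extDiv K F D) = x}

variable (K F) in
/-- extension of classes. -/
noncomputable def extPic (x : Pic0 k F₀) : Pic0 K F :=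
  dcl (extDiv K F (dcl_surjective x).choose)

theorem dcl_extDiv_eq_iff {D E : Divisor k F₀} (hD : Divisor.degree D = 0)
    (hE : Divisor.degree E = 0) :
    dcl (extDiv K F D) = dcl (extDiv K F E) ↔ dcl D = dcl E := by
  have hD' : Divisor.degree (extDiv K F D) = 0 := by rw [degree_extDiv, hD]
  have hE' : Divisor.degree (extDiv K F E) = 0 := by rw [degree_extDiv, hE]
  rw [← sub_eq_zero, ← dcl_sub hD' hE', ← extDiv_sub,
    dcl_eq_zero_iff (by rw [degree_extDiv, map_sub, hD, hE, sub_zero]),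
    ← sub_eq_zero (a := dcl D), ← dcl_sub hD hE,
    dcl_eq_zero_iff (by rw [map_sub, hD, hE, sub_zero])]
  exact ⟨principal_of_extDiv, extDiv_principal⟩

theorem extPic_dcl {D : Divisor k F₀} (hD : Divisor.degree D = 0) :
    extPic K F (dcl D) = dcl (extDiv K F D) := by
  unfold extPic
  have hs := (dcl_surjective (dcl D)).choose_spec
  exact (dcl_extDiv_eq_iff hs.1 hD).mpr hs.2

theorem extPic_injective : Function.Injective (extPic K F : Pic0 k F₀ → Pic0 K F) := by
  intro x y hxy
  obtain ⟨D, hD, rfl⟩ := dcl_surjective x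
  obtain ⟨E, hE, rfl⟩ := dcl_surjective y
  rw [extPic_dcl hD, extPic_dcl hE] at hxy
  exact (dcl_extDiv_eq_iff hD hE).mp hxy

theorem nsmul_dcl_extDiv_eq_zero_iff {D : Divisor k F₀} (hD : Divisor.degree D = 0) (n : ℕ) :
    n • dcl (extDiv K F D) = 0 ↔ n • dcl D = 0 := by
  have hD' : Divisor.degree (extDiv K F D) = 0 := by rw [degree_extDiv, hD]
  have hn : Divisor.degree (n • D) = 0 := by rw [map_nsmul, hD, smul_zero]
  rw [← dcl_nsmul hD', ← extDiv_nsmul, ← dcl_nsmul hD, ← dcl_zero (K := k) (F := F₀),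
    ← dcl_extDiv_eq_iff (K := K) (F := F) hn (map_zero _)]
  have h0 : extDiv K F (0 : Divisor k F₀) = 0 := by
    have := extDiv_sub (K := K) (F := F) D D
    simpa using this
  rw [h0, dcl_zero]

theorem ratTorsion_eq_image (n : ℕ) :
    ratTorsion k F₀ (K := K) (F := F) n = extPic K F '' {x : Pic0 k F₀ | n • x = 0} := by
  ext x
  constructor
  · rintro ⟨hx, D, hD, rfl⟩
    exact ⟨dcl D, (nsmul_dcl_extDiv_eq_zero_iff hD n).mp hx, extPic_dcl hD⟩
  · rintro ⟨y, hy, rfl⟩
    obtain ⟨D, hD, rfl⟩ := dcl_surjective y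
    rw [extPic_dcl hD]
    exact ⟨(nsmul_dcl_extDiv_eq_zero_iff hD n).mpr hy, D, hD, rfl⟩

/-- the rational torsion classes are in bijection with the torsion classes of `F₀`. -/
theorem ncard_ratTorsion (n : ℕ) :
    (ratTorsion k F₀ (K := K) (F := F) n).ncard = Nat.card (Pic0.torsion k F₀ n) := by
  rw [ratTorsion_eq_image, Set.ncard_image_of_injective _ extPic_injective, torsion_card_eq]
  rfl

namespace BCAut

variable (A : BCAut k K F₀ F)

omit [IsAlgClosed k] [CharZero k] [IsAlgClosed K] [CharZero K] [IsFF k F₀] [IsFF K F]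
  [IsBC k K F₀ F] in
theorem dv_single (v : Place K F) (m : ℤ) :
    A.dv (Finsupp.single v m) = Finsupp.single (A.pl v) m :=
  Finsupp.mapDomain_single

omit [IsAlgClosed k] [CharZero k] [IsAlgClosed K] [CharZero K] [IsFF k F₀] [IsFF K F]
  [IsBC k K F₀ F] in
theorem dv_zsmul (m : ℤ) (D : Divisor K F) : A.dv (m • D) = m • A.dv D :=
  map_zsmul (Finsupp.mapDomain.addMonoidHom A.pl) m D

omit [IsAlgClosed k] [CharZero k] [IsAlgClosed K] [CharZero K] [IsFF k F₀] [IsFF K F]
  [IsBC k K F₀ F] in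
theorem dv_nsmul (m : ℕ) (D : Divisor K F) : A.dv (m • D) = m • A.dv D :=
  map_nsmul (Finsupp.mapDomain.addMonoidHom A.pl) m D

omit [IsAlgClosed k] [CharZero k] [IsAlgClosed K] [CharZero K] [IsFF k F₀] [IsFF K F]
  [IsBC k K F₀ F] in
theorem pl_mem_support_dv {D : Divisor K F} {v : Place K F} (hv : v ∈ D.support) :
    A.pl v ∈ (A.dv D).support := by
  rw [Finsupp.mem_support_iff, A.dv_apply]
  exact Finsupp.mem_support_iff.mp hv

omit [IsAlgClosed k] [CharZero k] [IsFF k F₀] [IsBC k K F₀ F] in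
/-- reduced torsion divisors (with respect to a rational base point) are permuted. -/
theorem dv_mem_redTorsion {P₀ : Place K F} (hP₀ : A.pl P₀ = P₀) {n : ℕ} {E : Divisor K F}
    (hE : E ∈ redTorsion P₀ n) : A.dv E ∈ redTorsion P₀ n := by
  obtain ⟨⟨h1, h2⟩, h3⟩ := hE
  refine ⟨⟨A.dv_nonneg h1, ?_⟩, ?_⟩
  · rw [← hP₀, ← A.dv_single, ← A.dv_sub, A.finrank_L_dv, h2]
  · unfold bcl at h3 ⊢
    have hd := degree_sub_smul P₀ E
    rw [← dcl_nsmul hd, dcl_eq_zero_iff (by rw [map_nsmul, hd, smul_zero])] at h3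
    have h4 := A.dv_principal h3
    rw [A.dv_nsmul, A.dv_sub, A.dv_zsmul, A.dv_single, hP₀, ← A.degree_dv E] at h4
    have hd' := degree_sub_smul P₀ (A.dv E)
    rw [← dcl_nsmul hd', dcl_eq_zero_iff (by rw [map_nsmul, hd', smul_zero])]
    exact h4

end BCAut

/-- the points of a reduced torsion divisor are rational. -/
theorem rational_of_mem_redTorsion (v₀ : Place k F₀) (n : ℕ) (hfin : Finite (Pic0.torsion K F n))
    {E : Divisor K F} (hE : E ∈ redTorsion (extPlace K F v₀) n) {R : Place K F}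
    (hR : R ∈ E.support) : ∃ v : Place k F₀, R = extPlace K F v := by
  classical
  obtain ⟨x, hx⟩ := exists_nonconst k F₀
  apply rational_of_val R hx
  by_cases hpole : R.adicValuation (algebraMap F₀ F x) ≤ 1
  swap
  · exact Or.inl hpole
  right
  apply mem_range_of_finite_orbit
  have hT := finite_redTorsion (extPlace K F v₀) n hfin
  have hT2 : (⋃ E' ∈ redTorsion (extPlace K F v₀) n,
      ((E'.support : Set (Place K F)))).Finite :=
    hT.biUnion fun E' _ => E'.support.finite_toSet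
  apply (hT2.image fun R' => val R' (algebraMap F₀ F x)).subset
  rintro _ ⟨σ, rfl⟩
  obtain ⟨A, rfl⟩ := exists_bcAut (F₀ := F₀) (F := F) σ
  refine ⟨A.pl R, ?_, ?_⟩
  · exact Set.mem_biUnion (A.dv_mem_redTorsion (A.pl_extPlace v₀) hE) (A.pl_mem_support_dv hR)
  · show val (A.pl R) (algebraMap F₀ F x) = A.σ (val R (algebraMap F₀ F x))
    rw [← A.val_pl, A.map_F₀]

/-- **D11.** if the `n`-torsion of `Pic0 K F` is finite, all of it is defined over `k`
(finite orbits under `BCAut` of the unique minimal effective representative). -/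
theorem mem_ratTorsion_of_finite (n : ℕ) (hfin : Finite (Pic0.torsion K F n)) {x : Pic0 K F}
    (hx : n • x = 0) : x ∈ ratTorsion k F₀ (K := K) (F := F) n := by
  have : Infinite (Place k F₀) := infinite_places k F₀
  obtain ⟨v₀⟩ : Nonempty (Place k F₀) := inferInstance
  obtain ⟨E, hE, rfl⟩ := exists_isRed (extPlace K F v₀) x
  obtain ⟨E₀, rfl⟩ := exists_eq_extDiv (k := k) (F₀ := F₀) E fun R hR =>
    rational_of_mem_redTorsion v₀ n hfin ⟨hE, hx⟩ hR
  refine ⟨hx, E₀ - Divisor.degree E₀ • Finsupp.single v₀ 1, degree_sub_smul v₀ E₀, ?_⟩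
  unfold bcl
  congr 1
  rw [extDiv_sub, degree_extDiv]
  congr 1
  unfold extDiv
  rw [Finsupp.smul_single, Finsupp.smul_single, Finsupp.mapDomain_single]

variable (k K F₀ F) in
theorem card_torsion_bc (n : ℕ) (hfin : Finite (Pic0.torsion K F n)) :
    Nat.card (Pic0.torsion k F₀ n) = Nat.card (Pic0.torsion K F n) := by
  rw [← ncard_ratTorsion (K := K) (F := F) n, torsion_card_eq]
  have : ratTorsion k F₀ (K := K) (F := F) n = {x : Pic0 K F | n • x = 0} := by
    ext x
    exact ⟨fun h => h.1, fun h => mem_ratTorsion_of_finite n hfin h⟩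
  rw [this]
  rfl

end Fermat.Agent.S27
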